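import Mathlib
import Fermat.Agent.H7.SS.GaussSD
import Fermat.Agent.H8.SS.Haupt4Field
import Fermat.Agent.H8.SS.KroneckerU
import Fermat.Agent.H82.SS.Model
import Fermat.Agent.H11.SS2.Defs

/-!
# P-SS2, row SS2-C1 (EMB3) : INTERFACE (helper86)

Level `L = M' q` (`4 ∣ M'`, `q` an odd prime, `q ∤ M'`), base `K₁`, `A₀` a discrete valuation
ring of `K₁` in which `q` is a UNIFORMISER.

* `E₁ = ModelField K₁ (M' q) ⊆ E₂ = ModelField K₁ (M' q q) ⊆ K₁((t))`,
  `α = heckeAlphaBar K₁ (M' q) q` (inclusion), `β = heckeBetaBar K₁ (M' q) q` (`t ↦ t^q`).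
* series: `sH = H` (Hauptmodul of level 4), `sH1 = H(t^q)`, `sH2 = H(t^(q²))`,
  `sX1 = H1 - H^q`, `sY1 = H - H1^q`, `sZ = H2 - H`, `sX2 = H2 - H1^q = sZ + sY1`.
* `gaussV K₁ A₀ N` : the Gauss valuation ring of `q`-expansions on `ModelField K₁ N`
  (`V10 = gaussV (M' q)`, `V20 = gaussV (M' q q)`).
* `IsAL2 K₁ M' q Wq W` : `W = W_{q²}` on `E₂`, compatible with `Wq = W_q` on `E₁`:
  `W α = β Wq`, `W β = α Wq`, `W W = 1`.  `V02 = V20.comap W`, `V01 = V10.comap Wq`.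
* `V11` is characterised ABSTRACTLY: a valuation subring of `E₂` with `V11 ∩ α E₁ = V10`
  and `Z = H2 - H ∈ 𝔪`.  (No cyclotomic field is needed; existence by Chevalley, the values by
  the Newton polygon of `Z^(q-1) (Z + Y1) = X1 - q G(Z)`.)
* `Emb3Data` : the value table (the OUTPUT of the row), `Emb3Statement M' q`.
* `ExtExistsStatement`, `EisUnifStatement`, `PowIndepStatement` : the generic (Mathlib only)
  sub-rows; `AL2ExistsStatement`, `ModelDegreeStatement`, `ModelKron2Statement`,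
  `ModelRedStatement`, `ModelNormZStatement` : the modular sub-rows.
-/

set_option autoImplicit false

noncomputable section

namespace Fermat.Agent.H86.SS2

open Polynomial ModularCurve AlgebraicCurve
open Fermat.Agent.H22.KL Fermat.Agent.H8.SS Fermat.Agent.H7.SS Fermat.Agent.H82.SS

/-! ### The series -/

section Series

variable (R : Type) [CommRing R] (q : ℕ) [NeZero q]

/-- `H`, the Hauptmodul of level 4. -/
def sH : LaurentSeries R := h4S R

/-- `H1 = H(t^q)`. -/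
def sH1 : LaurentSeries R := qExpand R q (h4S R)

/-- `H2 = H(t^(q²))`. -/
def sH2 : LaurentSeries R := qExpand R q (qExpand R q (h4S R))

/-- `X1 = H1 - H^q`. -/
def sX1 : LaurentSeries R := sH1 R q - sH R ^ q

/-- `Y1 = H - H1^q`. -/
def sY1 : LaurentSeries R := sH R - sH1 R q ^ q

/-- `Z = H2 - H`. -/
def sZ : LaurentSeries R := sH2 R q - sH R

/-- `X2 = H2 - H1^q`. -/
def sX2 : LaurentSeries R := sH2 R q - sH1 R q ^ q

theorem sX2_eq : sX2 R q = sZ R q + sY1 R q := by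
  unfold sX2 sZ sY1
  ring

end Series

/-! ### Valuation-theoretic vocabulary -/

/-- `z` is a unit of the valuation ring `V`. -/
def IsVUnit {E : Type} [Field E] (V : ValuationSubring E) (z : E) : Prop :=
  z ≠ 0 ∧ z ∈ V ∧ z⁻¹ ∈ V

section Gauss

variable (K₁ : Type) [Field K₁] [Algebra ℚ K₁] (A₀ : Type) [CommRing A₀] [IsDomain A₀]
  [IsDiscreteValuationRing A₀] [Algebra A₀ K₁] [IsFractionRing A₀ K₁]

/-- The Gauss valuation ring of `q`-expansions on the model field of level `N`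
(`z = a / b`, `a, b` with `A₀`-integral expansions, `b` primitive). -/
def gaussV (N : ℕ) : ValuationSubring (ModelField K₁ N) :=
  gaussVal (laurentBaseChange K₁ (modularFunctionFieldFull N)) (hasGNF_model K₁ A₀ N)

theorem mem_gaussV_iff (N : ℕ) (z : ModelField K₁ N) :
    z ∈ gaussV K₁ A₀ N ↔
      InV (A₀ := A₀) (laurentBaseChange K₁ (modularFunctionFieldFull N))
        (z : LaurentSeries K₁) := Iff.rfl

theorem mem_nonunits_gaussV_iff (N : ℕ) (z : ModelField K₁ N) :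
    z ∈ (gaussV K₁ A₀ N).nonunits ↔
      InM (A₀ := A₀) (laurentBaseChange K₁ (modularFunctionFieldFull N))
        (z : LaurentSeries K₁) :=
  mem_nonunits_gaussVal_iff _ _ z

end Gauss

/-! ### The Atkin-Lehner involution `W_{q²}` -/

/-- `W = W_{q²}` on the model field of level `M' q q`, compatible with `Wq = W_q` on the model
field of level `M' q`. -/
structure IsAL2 (K₁ : Type) [Field K₁] [Algebra ℚ K₁] (M' q : ℕ) [NeZero M'] [NeZero q]
    (Wq : ModelField K₁ (M' * q) ≃ₐ[K₁] ModelField K₁ (M' * q))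
    (W : ModelField K₁ (M' * q * q) ≃ₐ[K₁] ModelField K₁ (M' * q * q)) : Prop where
  al : IsAtkinLehnerModel K₁ M' q Wq
  alpha : ∀ g, W (heckeAlphaBar K₁ (M' * q) q g) = heckeBetaBar K₁ (M' * q) q (Wq g)
  beta : ∀ g, W (heckeBetaBar K₁ (M' * q) q g) = heckeAlphaBar K₁ (M' * q) q (Wq g)
  invol : ∀ z, W (W z) = z

/-- **Sub-row AL2**: `W_{q²}` exists over every number field (descent of
`H62.SS.exists_atkinLehnerBar_gens M' (q q)`, transported along `M' (q q) = M' q q`). -/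
def AL2ExistsStatement (M' q : ℕ) [NeZero M'] [NeZero q] : Prop :=
  Nat.Coprime M' q →
  ∀ (K₁ : Type) [Field K₁] [Algebra ℚ K₁] [FiniteDimensional ℚ K₁]
    (Wq : ModelField K₁ (M' * q) ≃ₐ[K₁] ModelField K₁ (M' * q)),
    IsAtkinLehnerModel K₁ M' q Wq →
    ∃ W : ModelField K₁ (M' * q * q) ≃ₐ[K₁] ModelField K₁ (M' * q * q),
      IsAL2 K₁ M' q Wq W

/-! ### Generic sub-rows (Mathlib only) -/

/-- **Sub-row EXT (Chevalley)**.  `φ : E₁ → E₂` fields, `V` a valuation ring of `E₁`,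
`Z ∈ E₂` a root of a monic `P ∈ V[T]` of degree `n` with `P(0) ∈ 𝔪_V`, and
`1, Z, …, Z^(n-1)` independent over `E₁`.  Then some valuation ring `V'` of `E₂` has
`V' ∩ E₁ = V` and `Z ∈ 𝔪_{V'}`.
(Proof: `R = V[Z]` is free over `V` on `1, …, Z^(n-1)`; the constant coordinate of an element of
`𝔪_V R + Z R` lies in `𝔪_V`, so this ideal is proper; take a maximal ideal above it and a
valuation ring dominating the localisation, `LocalSubring.exists_le_valuationSubring` or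
`ValuationSubring` of Chevalley type; a valuation ring of `E₁` dominated by `V' ∩ E₁` is equal
to it.) -/
def ExtExistsStatement : Prop :=
  ∀ (E₁ E₂ : Type) [Field E₁] [Field E₂] (φ : E₁ →+* E₂) (V : ValuationSubring E₁)
    (Z : E₂) (n : ℕ) (P : Polynomial E₁),
    P.Monic → P.natDegree = n → (∀ i, P.coeff i ∈ V) → P.coeff 0 ∈ V.nonunits →
    (P.map φ).eval Z = 0 →
    (∀ c : Fin n → E₁, ∑ i, φ (c i) * Z ^ (i : ℕ) = 0 → ∀ i, c i = 0) →
    ∃ V' : ValuationSubring E₂, V'.comap φ = V ∧ Z ∈ V'.nonunits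

/-- **Sub-row EIS (Newton polygon / Eisenstein)**.  `φ : E₁ → E₂` of degree `≤ d` (any `d + 1`
elements of `E₂` are dependent over `E₁`), `V' ∩ E₁ = V`, `V` DISCRETE with uniformiser `ϖ`
(every nonzero element of `E₁` is a unit times a power of `ϖ`), `Z ∈ 𝔪_{V'}` with
`Z^n = ϖ · unit`, and `d < 2 n`.  Then `Z` is a uniformiser of `V'`, every nonzero element of
`E₂` is a unit times a power of `Z`, and `V'` is a discrete valuation ring.
(Proof: if `v(y) ∉ v(Z)^ℤ`, the `2 n` elements `Z^i, y Z^i` (`i < n`) have values in pairwise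
distinct cosets of `v(E₁ˣ) = v(Z)^(n ℤ)`, hence are independent over `E₁`.) -/
def EisUnifStatement : Prop :=
  ∀ (E₁ E₂ : Type) [Field E₁] [Field E₂] (φ : E₁ →+* E₂) (V : ValuationSubring E₁)
    (V' : ValuationSubring E₂), V'.comap φ = V →
    ∀ (ϖ : E₁), IsUniformiser E₁ V ϖ →
    (∀ a : E₁, a ≠ 0 → ∃ k : ℤ, IsVUnit V (a / ϖ ^ k)) →
    ∀ (n d : ℕ), 0 < n → d < 2 * n →
    (∀ c : Fin (d + 1) → E₂, ∃ a : Fin (d + 1) → E₁, a ≠ 0 ∧ ∑ i, φ (a i) * c i = 0) →
    ∀ Z : E₂, Z ∈ V'.nonunits → IsVUnit V' (Z ^ n / φ ϖ) →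
      IsUniformiser E₂ V' Z ∧ (∀ y : E₂, y ≠ 0 → ∃ k : ℤ, IsVUnit V' (y / Z ^ k)) ∧
      IsPrincipalIdealRing V' ∧ V' ≠ ⊤

/-- **Sub-row POWINDEP** (Mathlib + prelude `qExpand`): if the order of `u` is prime to `q`,
then `1, u, …, u^(q-1)` are independent over `k((t^q))`: a polynomial `Q` of degree `< q` with
`Q(t^q)(u) = 0` is zero.  (The orders of the nonzero terms `c_i(t^q) u^i` are pairwise
incongruent modulo `q`.) -/
def PowIndepStatement : Prop :=
  ∀ (k : Type) [Field k] (q : ℕ) [NeZero q], q.Prime →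
    ∀ u : LaurentSeries k, u ≠ 0 → ¬ (q : ℤ) ∣ u.order →
    ∀ Q : Polynomial (LaurentSeries k), Q.natDegree < q →
      (Q.map (qExpand k q)).eval u = 0 → Q = 0

/-! ### Modular sub-rows -/

/-- **Sub-row DEG**: `[E₂ : α E₁] ≤ q` (in fact `= q = ψ(M' q²) / ψ(M' q)`,
from `H57.SS.modelFinrank` and the tower law over `K₁(j)`). -/
def ModelDegreeStatement (M' q : ℕ) [NeZero M'] [NeZero q] : Prop :=
  q.Prime → ¬ q ∣ M' →
  ∀ (K₁ : Type) [Field K₁] [Algebra ℚ K₁],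
    ∀ c : Fin (q + 1) → ModelField K₁ (M' * q * q),
      ∃ a : Fin (q + 1) → ModelField K₁ (M' * q), a ≠ 0 ∧
        ∑ i, heckeAlphaBar K₁ (M' * q) q (a i) * c i = 0

/-- The coefficients of the series `z` lie in (the image of) `A₀`. -/
def IsIntSeries {K₁ : Type} [Field K₁] (A₀ : Type) [CommRing A₀] [Algebra A₀ K₁]
    (z : LaurentSeries K₁) : Prop :=
  ∀ n : ℤ, z.coeff n ∈ (algebraMap A₀ K₁).range

/-- **Sub-row KRON2** (helper8 `exists_kroneckerU_of_mem` + helper62 `kronecker_twice_monic` +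
descent `ℚ̄ → K₁` + sub-row NORMZ): the relation `Z^(q-1) (Z + Y1) - X1 + q G(Z) = 0` in `E₂`,
with `G ∈ E₁[T]` of degree `< q` whose coefficients are INTEGER series
`coeffMap (Int.castRingHom K₁) g_i`, and whose images under `Wq` are integer series as well
(they are polynomials in `H`, `H1` and `β`-images of elements of the level-`M'` field:
`Wq (β₁ ψ) = α₁ ψ`).  Moreover the constant term `-X1 + q G(0)` of the monic polynomial
`P = T^(q-1) (T + Y1) - X1 + q G` (`= P*(H)`, `P*` the cofactor of `T - H` in the Hecke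
polynomial) is `q B` with `B` an integer series with NONZERO reduction (sub-row NORMZ). -/
def ModelKron2Statement (M' q : ℕ) [NeZero M'] [NeZero q] [Fact q.Prime] : Prop :=
  q ≠ 2 → 4 ∣ M' → ¬ q ∣ M' →
  ∀ (K₁ : Type) [Field K₁] [Algebra ℚ K₁] [FiniteDimensional ℚ K₁]
    (Wq : ModelField K₁ (M' * q) ≃ₐ[K₁] ModelField K₁ (M' * q)),
    IsAtkinLehnerModel K₁ M' q Wq →
    ∃ G : Polynomial (ModelField K₁ (M' * q)),
      G.natDegree < q ∧
      (∀ i, ∃ g : LaurentSeries ℤ,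
        ((G.coeff i : ModelField K₁ (M' * q)) : LaurentSeries K₁) =
          coeffMap (Int.castRingHom K₁) g) ∧
      (∀ i, ∃ g : LaurentSeries ℤ,
        ((Wq (G.coeff i) : ModelField K₁ (M' * q)) : LaurentSeries K₁) =
          coeffMap (Int.castRingHom K₁) g) ∧
      (∃ B : LaurentSeries ℤ, redQ q B ≠ 0 ∧
        - sX1 K₁ q + (q : LaurentSeries K₁) *
            ((G.coeff 0 : ModelField K₁ (M' * q)) : LaurentSeries K₁) =
          (q : LaurentSeries K₁) * coeffMap (Int.castRingHom K₁) B) ∧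
      ∀ (X Y : ModelField K₁ (M' * q)) (Z : ModelField K₁ (M' * q * q)),
        (X : LaurentSeries K₁) = sX1 K₁ q → (Y : LaurentSeries K₁) = sY1 K₁ q →
        (Z : LaurentSeries K₁) = sZ K₁ q →
        Z ^ (q - 1) * (Z + heckeAlphaBar K₁ (M' * q) q Y) - heckeAlphaBar K₁ (M' * q) q X +
          (q : ModelField K₁ (M' * q * q)) *
            (G.map (heckeAlphaBar K₁ (M' * q) q).toRingHom).eval Z = 0

/-- **Sub-row RED** (reductions modulo `q` of integer series; helper8 `redQ`, `theta`,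
`exists_kroneckerU_of_mem`): the reductions of `Y1 = H - H1^q`, `Z = H2 - H` are nonzero, and
`X1 = q δ`, `X2 = q δ(t^q)` with `δ̄ ≠ 0`. -/
def ModelRedStatement (q : ℕ) [NeZero q] [Fact q.Prime] : Prop :=
  q ≠ 2 →
    redQ q (sY1 ℤ q) ≠ 0 ∧ redQ q (sZ ℤ q) ≠ 0 ∧
    ∃ δ : LaurentSeries ℤ, sX1 ℤ q = (q : LaurentSeries ℤ) * δ ∧
      sX2 ℤ q = (q : LaurentSeries ℤ) * qExpand ℤ q δ ∧ redQ q δ ≠ 0

/-- **Sub-row NORMZ** (the arithmetic heart of `V11`): for ANY `G ∈ ℤ((t))[T]` with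
`Z^(q-1) (Z + Y1) - X1 + q G(Z) = 0` in `ℤ((t))` and with `1, Z, …` behaving as in KRON2, the
constant term `-X1 + q G(0)` of the monic polynomial `P(T) = T^(q-1) (T + Y1) - X1 + q G(T)`
is `q` times an integer series with NONZERO reduction.  Stated for the polynomial `P* ` itself:
if `Pst ∈ ℤ((t))[T]` is monic of degree `q` with
`(X - H) · Pst = (heckeU q H).map (t ↦ t^q)`, then `Pst(H) = q B` with `B̄ ≠ 0`
(in fact `B̄ = - (H̄^(q²) - H̄) (θ H̄)^(q-1)`, from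
`Pst(H) = (H - H2) ∏_{0<b<q} (H - H(ζ^b t))` and `∏ (1 - ζ^b) = q`). -/
def ModelNormZStatement (q : ℕ) [NeZero q] [Fact q.Prime] : Prop :=
  q ≠ 2 →
  ∀ Pst : Polynomial (LaurentSeries ℤ),
    (X - C (h4S ℤ)) * Pst = (heckeU q (h4S ℤ)).map (qExpand ℤ q) →
    ∃ B : LaurentSeries ℤ, Pst.eval (h4S ℤ) = (q : LaurentSeries ℤ) * B ∧ redQ q B ≠ 0

/-! ### The output of the row -/

section Output

variable (K₁ : Type) [Field K₁] [Algebra ℚ K₁] (A₀ : Type) [CommRing A₀] [IsDomain A₀]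
  [IsDiscreteValuationRing A₀] [Algebra A₀ K₁] [IsFractionRing A₀ K₁]
  (M' q : ℕ) [NeZero M'] [NeZero q]

/-- `V10`, the Gauss valuation ring of level `M' q`. -/
abbrev V10 : ValuationSubring (ModelField K₁ (M' * q)) := gaussV K₁ A₀ (M' * q)

/-- `V01 = W_q (V10)`. -/
abbrev V01 (Wq : ModelField K₁ (M' * q) ≃ₐ[K₁] ModelField K₁ (M' * q)) :
    ValuationSubring (ModelField K₁ (M' * q)) :=
  (gaussV K₁ A₀ (M' * q)).comap (Wq : ModelField K₁ (M' * q) →+* ModelField K₁ (M' * q))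

/-- `V20`, the Gauss valuation ring of level `M' q q`. -/
abbrev V20 : ValuationSubring (ModelField K₁ (M' * q * q)) := gaussV K₁ A₀ (M' * q * q)

/-- `V02 = W_{q²} (V20)`. -/
abbrev V02 (W : ModelField K₁ (M' * q * q) ≃ₐ[K₁] ModelField K₁ (M' * q * q)) :
    ValuationSubring (ModelField K₁ (M' * q * q)) :=
  (gaussV K₁ A₀ (M' * q * q)).comap
    (W : ModelField K₁ (M' * q * q) →+* ModelField K₁ (M' * q * q))

/-- **The value table** of the three vertical valuations `V20`, `V11`, `V02` of level `M' q²`.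
`X, Y, Z` are the elements of `E₂` with expansions `X1`, `Y1`, `Z = H2 - H`
(`Y + Z` is `X2 = H2 - H1^q`). -/
structure Emb3Data (Wq : ModelField K₁ (M' * q) ≃ₐ[K₁] ModelField K₁ (M' * q))
    (W : ModelField K₁ (M' * q * q) ≃ₐ[K₁] ModelField K₁ (M' * q * q))
    (V11 : ValuationSubring (ModelField K₁ (M' * q * q)))
    (X Y Z : ModelField K₁ (M' * q * q)) : Prop where
  al2 : IsAL2 K₁ M' q Wq W
  /-- `V20 ∩ α E₁ = V10` -/
  comap20 : (V20 K₁ A₀ M' q).comap (heckeAlphaBar K₁ (M' * q) q).toRingHom = V10 K₁ A₀ M' q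
  /-- `V11 ∩ α E₁ = V10` -/
  comap11 : V11.comap (heckeAlphaBar K₁ (M' * q) q).toRingHom = V10 K₁ A₀ M' q
  /-- `V02 ∩ α E₁ = V01` -/
  comap02 : (V02 K₁ A₀ M' q W).comap (heckeAlphaBar K₁ (M' * q) q).toRingHom =
    V01 K₁ A₀ M' q Wq
  /-- `V20 ∩ β E₁ = V10` -/
  comapB20 : (V20 K₁ A₀ M' q).comap (heckeBetaBar K₁ (M' * q) q).toRingHom = V10 K₁ A₀ M' q
  /-- `V02 ∩ β E₁ = V01` -/
  comapB02 : (V02 K₁ A₀ M' q W).comap (heckeBetaBar K₁ (M' * q) q).toRingHom =
    V01 K₁ A₀ M' q Wq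
  pir11 : IsPrincipalIdealRing V11
  ne_top11 : V11 ≠ ⊤
  -- the table at `V20`
  q20 : IsUniformiser _ (V20 K₁ A₀ M' q) ((q : ℕ) : ModelField K₁ (M' * q * q))
  s20 : IsUniformiser _ (V20 K₁ A₀ M' q) (Y + Z)
  y20 : IsVUnit (V20 K₁ A₀ M' q) Y
  z20 : IsVUnit (V20 K₁ A₀ M' q) Z
  -- the table at `V11`
  z11 : IsUniformiser _ V11 Z
  q11 : IsVUnit V11 (Z ^ (q - 1) / ((q : ℕ) : ModelField K₁ (M' * q * q)))
  y11 : IsVUnit V11 Y
  s11 : IsVUnit V11 (Y + Z)
  disc11 : ∀ y : ModelField K₁ (M' * q * q), y ≠ 0 → ∃ k : ℤ, IsVUnit V11 (y / Z ^ k)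
  -- the table at `V02`
  q02 : IsUniformiser _ (V02 K₁ A₀ M' q W) ((q : ℕ) : ModelField K₁ (M' * q * q))
  y02 : IsUniformiser _ (V02 K₁ A₀ M' q W) Y
  z02 : IsVUnit (V02 K₁ A₀ M' q W) Z
  s02 : IsVUnit (V02 K₁ A₀ M' q W) (Y + Z)
  -- the relation `Z^(q-1) (Z + Y) - X + q G = 0` with `G` integral at the three valuations
  g20 : (X - Z ^ (q - 1) * (Z + Y)) / ((q : ℕ) : ModelField K₁ (M' * q * q)) ∈ V20 K₁ A₀ M' q
  g11 : (X - Z ^ (q - 1) * (Z + Y)) / ((q : ℕ) : ModelField K₁ (M' * q * q)) ∈ V11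
  g02 : (X - Z ^ (q - 1) * (Z + Y)) / ((q : ℕ) : ModelField K₁ (M' * q * q)) ∈
    V02 K₁ A₀ M' q W
  -- distinctness
  ne_20_11 : V20 K₁ A₀ M' q ≠ V11
  ne_20_02 : V20 K₁ A₀ M' q ≠ V02 K₁ A₀ M' q W
  ne_11_02 : V11 ≠ V02 K₁ A₀ M' q W

end Output

/-- **SS2-C1 (EMB3), the statement of the row**: over an unramified base, for every
Atkin-Lehner involution `Wq` of level `M' q` there are `W = W_{q²}` and a valuation ring `V11`
of `E₂` such that the value table `Emb3Data` holds. -/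
def Emb3Statement (M' q : ℕ) [NeZero M'] [NeZero q] : Prop :=
  q.Prime → q ≠ 2 → 4 ∣ M' → ¬ q ∣ M' →
  ∀ (K₁ : Type) [Field K₁] [Algebra ℚ K₁] [FiniteDimensional ℚ K₁]
    (A₀ : Type) [CommRing A₀] [IsDomain A₀] [IsDiscreteValuationRing A₀]
    [Algebra A₀ K₁] [IsFractionRing A₀ K₁],
    Irreducible ((q : ℕ) : A₀) →
    ∀ (Wq : ModelField K₁ (M' * q) ≃ₐ[K₁] ModelField K₁ (M' * q)),
      IsAtkinLehnerModel K₁ M' q Wq →
      ∃ (W : ModelField K₁ (M' * q * q) ≃ₐ[K₁] ModelField K₁ (M' * q * q))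
        (V11 : ValuationSubring (ModelField K₁ (M' * q * q))),
        ∀ (X Y Z : ModelField K₁ (M' * q * q)),
          (X : LaurentSeries K₁) = sX1 K₁ q → (Y : LaurentSeries K₁) = sY1 K₁ q →
          (Z : LaurentSeries K₁) = sZ K₁ q →
          Emb3Data K₁ A₀ M' q Wq W V11 X Y Z

end Fermat.Agent.H86.SS2
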