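import Mathlib
import Fermat.Agent.H86.SS2.Emb3Defs

/-!
# P-SS2, row SS2-C1 (EMB3) : generic valuation lemmas and the Gauss valuation (helper86)

* `IsVUnit` calculus in a valuation subring.
* `comap_eq_of_mem` : `V'.comap φ = V` from `φ V ⊆ V'`, `φ 𝔪_V ⊆ 𝔪_{V'}`.
* the Gauss valuation ring `gaussVal E hG` of an intermediate field `E ⊆ K₁((t))`:
  integer series are integral, integer series with nonzero reduction are units, `q` is a
  uniformiser (unramified base), discreteness.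
-/

set_option autoImplicit false

noncomputable section

namespace Fermat.Agent.H86.SS2

open Polynomial ModularCurve AlgebraicCurve
open Fermat.Agent.H22.KL Fermat.Agent.H8.SS Fermat.Agent.H7.SS Fermat.Agent.H48.QExp

/-! ### Units of a valuation subring -/

section VUnit

variable {E : Type} [Field E] (V : ValuationSubring E)

theorem isVUnit_iff_val (z : E) : IsVUnit V z ↔ V.valuation z = 1 := by
  constructor
  · rintro ⟨h0, h1, h2⟩
    have a1 : V.valuation z ≤ 1 := (V.valuation_le_one_iff z).2 h1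
    have a2 : V.valuation z⁻¹ ≤ 1 := (V.valuation_le_one_iff _).2 h2
    rw [map_inv₀] at a2
    have hv0 : V.valuation z ≠ 0 := (Valuation.ne_zero_iff _).2 h0
    have a3 : 1 ≤ V.valuation z := by
      by_contra hlt
      rw [not_le] at hlt
      have := (one_lt_inv₀ (zero_lt_iff.2 hv0)).2 hlt
      exact absurd a2 (not_le.2 this)
    exact le_antisymm a1 a3
  · intro h
    have h0 : z ≠ 0 := by
      rintro rfl
      rw [map_zero] at h
      exact zero_ne_one h
    refine ⟨h0, (V.valuation_le_one_iff z).1 h.le, (V.valuation_le_one_iff _).1 ?_⟩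
    rw [map_inv₀, h, inv_one]

variable {V}

theorem IsVUnit.ne_zero {z : E} (h : IsVUnit V z) : z ≠ 0 := h.1

theorem IsVUnit.mem {z : E} (h : IsVUnit V z) : z ∈ V := h.2.1

theorem IsVUnit.inv_mem {z : E} (h : IsVUnit V z) : z⁻¹ ∈ V := h.2.2

theorem IsVUnit.mul {x y : E} (hx : IsVUnit V x) (hy : IsVUnit V y) : IsVUnit V (x * y) := by
  rw [isVUnit_iff_val] at *
  rw [map_mul, hx, hy, one_mul]

theorem IsVUnit.inv {x : E} (hx : IsVUnit V x) : IsVUnit V x⁻¹ := by
  rw [isVUnit_iff_val] at *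
  rw [map_inv₀, hx, inv_one]

theorem IsVUnit.div {x y : E} (hx : IsVUnit V x) (hy : IsVUnit V y) : IsVUnit V (x / y) := by
  rw [div_eq_mul_inv]
  exact hx.mul hy.inv

theorem IsVUnit.neg {x : E} (hx : IsVUnit V x) : IsVUnit V (-x) := by
  rw [isVUnit_iff_val] at *
  rw [Valuation.map_neg, hx]

theorem IsVUnit.pow {x : E} (hx : IsVUnit V x) (n : ℕ) : IsVUnit V (x ^ n) := by
  rw [isVUnit_iff_val] at *
  rw [map_pow, hx, one_pow]

theorem isVUnit_one : IsVUnit V (1 : E) := by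
  rw [isVUnit_iff_val, map_one]

theorem IsVUnit.not_mem_nonunits {x : E} (hx : IsVUnit V x) : x ∉ V.nonunits := by
  rw [isVUnit_iff_val] at hx
  rw [ValuationSubring.mem_nonunits_iff, hx]
  exact lt_irrefl _

theorem isVUnit_of_mem_of_not_mem {x : E} (hx : x ∈ V) (hx' : x ∉ V.nonunits) : IsVUnit V x := by
  rw [isVUnit_iff_val]
  rw [ValuationSubring.mem_nonunits_iff, not_lt] at hx'
  exact le_antisymm ((V.valuation_le_one_iff x).2 hx) hx'

/-- unit + non-unit = unit -/
theorem IsVUnit.add_nonunit {u m : E} (hu : IsVUnit V u) (hm : m ∈ V.nonunits) :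
    IsVUnit V (u + m) := by
  rw [isVUnit_iff_val] at *
  rw [ValuationSubring.mem_nonunits_iff] at hm
  rw [add_comm]
  rw [Valuation.map_add_eq_of_lt_right _ (by rw [hu]; exact hm), hu]

theorem nonunits_mul_mem {x y : E} (hx : x ∈ V.nonunits) (hy : y ∈ V) : x * y ∈ V.nonunits := by
  rw [ValuationSubring.mem_nonunits_iff] at *
  rw [map_mul]
  have hy' := (V.valuation_le_one_iff y).2 hy
  calc V.valuation x * V.valuation y ≤ V.valuation x * 1 := by gcongr
    _ = V.valuation x := mul_one _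
    _ < 1 := hx

theorem nonunits_add_mem {x y : E} (hx : x ∈ V.nonunits) (hy : y ∈ V.nonunits) :
    x + y ∈ V.nonunits := by
  rw [ValuationSubring.mem_nonunits_iff] at *
  exact lt_of_le_of_lt (Valuation.map_add _ _ _) (max_lt hx hy)

theorem nonunits_neg_mem {x : E} (hx : x ∈ V.nonunits) : -x ∈ V.nonunits := by
  rw [ValuationSubring.mem_nonunits_iff] at *
  rwa [Valuation.map_neg]

/-- a uniformiser times a unit is a uniformiser -/
theorem isUniformiser_mul_unit {t u : E} (ht : IsUniformiser E V t) (hu : IsVUnit V u) :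
    IsUniformiser E V (t * u) := by
  obtain ⟨ht0, htm, htd⟩ := ht
  refine ⟨mul_ne_zero ht0 hu.1, nonunits_mul_mem htm hu.mem, fun y hy => ?_⟩
  have h1 := htd y hy
  have h2 : y / (t * u) = y / t * u⁻¹ := by
    field_simp [ht0, hu.1]
  rw [h2]
  exact V.mul_mem _ _ h1 hu.inv_mem

/-- the unit property of a uniformiser quotient -/
theorem IsVUnit.of_mul_eq {x y z : E} (hy : IsVUnit V y) (hz : IsVUnit V z) (h : x * y = z) :
    IsVUnit V x := by
  have hx : x = z / y := by
    rw [← h]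
    field_simp [hy.1]
  rw [hx]
  exact hz.div hy

end VUnit

/-! ### Restriction of valuation rings -/

theorem comap_eq_of_mem {E E' : Type} [Field E] [Field E'] (φ : E →+* E')
    (V : ValuationSubring E) (V' : ValuationSubring E')
    (h1 : ∀ z ∈ V, φ z ∈ V') (h2 : ∀ z ∈ V.nonunits, φ z ∈ V'.nonunits) :
    V'.comap φ = V := by
  ext z
  rw [ValuationSubring.mem_comap]
  constructor
  · intro hz
    by_contra hzV
    have hz0 : z ≠ 0 := by
      rintro rfl
      exact hzV V.zero_mem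
    have h3 : z⁻¹ ∈ V.nonunits := by
      rw [ValuationSubring.mem_nonunits_iff_or]
      right
      rwa [inv_inv]
    have h4 := h2 _ h3
    rw [map_inv₀, ValuationSubring.mem_nonunits_iff_or] at h4
    rcases h4 with h4 | h4
    · rw [inv_eq_zero] at h4
      exact hz0 ((map_eq_zero φ).1 h4)
    · rw [inv_inv] at h4
      exact h4 hz
  · exact h1 z

theorem isVUnit_comap {E E' : Type} [Field E] [Field E'] (φ : E →+* E')
    (V' : ValuationSubring E') {z : E} (hz : IsVUnit (V'.comap φ) z) : IsVUnit V' (φ z) := by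
  obtain ⟨h0, h1, h2⟩ := hz
  refine ⟨(_root_.map_ne_zero φ).2 h0, h1, ?_⟩
  rw [← map_inv₀]
  exact h2

theorem nonunits_comap {E E' : Type} [Field E] [Field E'] (φ : E →+* E')
    (V' : ValuationSubring E') {z : E} (hz : z ∈ (V'.comap φ).nonunits) :
    φ z ∈ V'.nonunits := by
  rw [ValuationSubring.mem_nonunits_iff_or] at hz ⊢
  rcases hz with rfl | hz
  · left
    exact map_zero φ
  · right
    rw [← map_inv₀]
    exact hz

theorem nonunits_comap_iff {E E' : Type} [Field E] [Field E'] (φ : E →+* E')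
    (V' : ValuationSubring E') {z : E} : z ∈ (V'.comap φ).nonunits ↔ φ z ∈ V'.nonunits := by
  rw [ValuationSubring.mem_nonunits_iff_or, ValuationSubring.mem_nonunits_iff_or, map_eq_zero,
    ← map_inv₀]
  rfl

theorem isUniformiser_comap_equiv {E : Type} [Field E] (W : E ≃+* E) (hW : ∀ z, W (W z) = z)
    (V : ValuationSubring E) {t : E} (ht : IsUniformiser E V (W t)) :
    IsUniformiser E (V.comap (W : E →+* E)) t := by
  obtain ⟨ht0, htm, htd⟩ := ht
  refine ⟨fun h => ht0 (by rw [h, map_zero]), ?_, fun y hy => ?_⟩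
  · rw [nonunits_comap_iff]
    exact htm
  · rw [ValuationSubring.mem_comap]
    have h1 := htd (W y) ((nonunits_comap_iff (W : E →+* E) V).1 hy)
    have h2 : (W : E →+* E) (y / t) = W y / W t := map_div₀ W y t
    rw [h2]
    exact h1

theorem isVUnit_comap_iff {E E' : Type} [Field E] [Field E'] (φ : E →+* E')
    (V' : ValuationSubring E') {z : E} : IsVUnit (V'.comap φ) z ↔ IsVUnit V' (φ z) := by
  unfold IsVUnit
  rw [ValuationSubring.mem_comap, ValuationSubring.mem_comap, map_inv₀, Ne, Ne, map_eq_zero]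

/-! ### The Gauss valuation ring -/

section GaussVal

variable {K₁ : Type} [Field K₁] {A₀ : Type} [CommRing A₀] [IsDomain A₀]
  [IsDiscreteValuationRing A₀] [Algebra A₀ K₁] [IsFractionRing A₀ K₁]
  (E : IntermediateField K₁ (LaurentSeries K₁)) (hG : HasGNF A₀ E)

theorem gIota_int (g : LaurentSeries ℤ) :
    gIota K₁ A₀ (coeffMap (Int.castRingHom A₀) g) = coeffMap (Int.castRingHom K₁) g := by
  rw [gIota, coeffMap_coeffMap]
  exact coeffMap_congr (RingHom.ext_int _ _) _

theorem gRho_int (g : LaurentSeries ℤ) :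
    gRho A₀ (coeffMap (Int.castRingHom A₀) g) =
      coeffMap (Int.castRingHom (IsLocalRing.ResidueField A₀)) g := by
  rw [gRho, coeffMap_coeffMap]
  exact coeffMap_congr (RingHom.ext_int _ _) _

/-- integer series are Gauss-integral -/
theorem inV_of_int {z : LaurentSeries K₁} (hz : z ∈ E) (g : LaurentSeries ℤ)
    (hg : z = coeffMap (Int.castRingHom K₁) g) : InV (A₀ := A₀) E z := by
  refine ⟨coeffMap (Int.castRingHom A₀) g, 1, ?_, ?_, ?_, ?_⟩
  · rw [gIota_int, ← hg]
    exact hz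
  · rw [map_one]
    exact E.one_mem
  · rw [map_one]
    exact one_ne_zero
  · rw [map_one, mul_one, gIota_int, hg]

theorem mem_gaussVal_of_int (z : E) (g : LaurentSeries ℤ)
    (hg : (z : LaurentSeries K₁) = coeffMap (Int.castRingHom K₁) g) : z ∈ gaussVal E hG :=
  inV_of_int E z.2 g hg

variable (q : ℕ) [hq : Fact q.Prime]

/-- the residue field has characteristic `q`: an integer with nonzero image is prime to `q` -/
theorem residue_int_ne_zero (hqm : ((q : ℕ) : A₀) ∈ IsLocalRing.maximalIdeal A₀) (c : ℤ)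
    (hc : ¬ (q : ℤ) ∣ c) : (Int.castRingHom (IsLocalRing.ResidueField A₀)) c ≠ 0 := by
  intro h0
  have h1 : IsLocalRing.residue A₀ ((c : ℤ) : A₀) = 0 := by
    rw [← h0]
    simp
  rw [IsLocalRing.residue_eq_zero_iff] at h1
  have hcop : IsCoprime c (q : ℤ) := by
    rw [Int.isCoprime_iff_gcd_eq_one]
    have hp : Prime (q : ℤ) := Nat.prime_iff_prime_int.mp hq.out
    have := (Int.isCoprime_iff_gcd_eq_one).1 ((hp.coprime_iff_not_dvd).2 hc)
    rw [Int.gcd_comm]
    exact this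
  obtain ⟨x, y, hxy⟩ := hcop
  have h2 : ((x : ℤ) : A₀) * ((c : ℤ) : A₀) + ((y : ℤ) : A₀) * ((q : ℕ) : A₀) = 1 := by
    have := congrArg (Int.castRingHom A₀) hxy
    simpa using this
  have h3 : (1 : A₀) ∈ IsLocalRing.maximalIdeal A₀ := by
    rw [← h2]
    exact Ideal.add_mem _ (Ideal.mul_mem_left _ _ h1) (Ideal.mul_mem_left _ _ hqm)
  exact (IsLocalRing.maximalIdeal.isMaximal A₀).ne_top ((Ideal.eq_top_iff_one _).2 h3)

theorem gRho_int_ne_zero (hqm : ((q : ℕ) : A₀) ∈ IsLocalRing.maximalIdeal A₀)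
    (g : LaurentSeries ℤ) (hg : redQ q g ≠ 0) :
    gRho A₀ (coeffMap (Int.castRingHom A₀) g) ≠ 0 := by
  rw [gRho_int]
  rw [Ne, redQ_eq_zero_iff] at hg
  push Not at hg
  obtain ⟨n, hn⟩ := hg
  exact coeffMap_ne_zero_of_coeff _ g n (residue_int_ne_zero q hqm _ hn)

theorem int_ne_zero_of_redQ (hqm : ((q : ℕ) : A₀) ∈ IsLocalRing.maximalIdeal A₀)
    (g : LaurentSeries ℤ) (hg : redQ q g ≠ 0) : coeffMap (Int.castRingHom K₁) g ≠ 0 := by
  have h := gRho_int_ne_zero (A₀ := A₀) q hqm g hg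
  have h2 := gIota_ne_zero_of_gRho (K₁ := K₁) h
  rwa [gIota_int] at h2

/-- integer series with nonzero reduction are Gauss units -/
theorem isVUnit_gaussVal_of_int (hqm : ((q : ℕ) : A₀) ∈ IsLocalRing.maximalIdeal A₀)
    (z : E) (g : LaurentSeries ℤ)
    (hg : (z : LaurentSeries K₁) = coeffMap (Int.castRingHom K₁) g) (hred : redQ q g ≠ 0) :
    IsVUnit (gaussVal E hG) z := by
  have hz0 : (z : LaurentSeries K₁) ≠ 0 := by
    rw [hg]
    exact int_ne_zero_of_redQ q hqm g hred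
  refine ⟨fun h => hz0 (by rw [h]; rfl), mem_gaussVal_of_int E hG z g hg, ?_⟩
  rw [mem_gaussVal_iff]
  refine ⟨1, coeffMap (Int.castRingHom A₀) g, ?_, ?_, gRho_int_ne_zero q hqm g hred, ?_⟩
  · rw [map_one]
    exact E.one_mem
  · rw [gIota_int, ← hg]
    exact z.2
  · rw [gIota_int, ← hg, map_one]
    push_cast
    exact inv_mul_cancel₀ hz0

/-- `q` is a uniformiser of the Gauss valuation (unramified base) -/
theorem isUniformiser_gaussVal_q (hqi : Irreducible ((q : ℕ) : A₀)) :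
    IsUniformiser E (gaussVal E hG) ((q : ℕ) : E) := by
  have hφ : Function.Injective (algebraMap A₀ K₁) := IsFractionRing.injective A₀ K₁
  have hq0 : ((q : ℕ) : K₁) ≠ 0 := by
    have h1 : algebraMap A₀ K₁ ((q : ℕ) : A₀) ≠ 0 := fun h0 =>
      hqi.ne_zero ((map_eq_zero_iff _ hφ).1 h0)
    simpa using h1
  have hqE : ((q : ℕ) : E) ≠ 0 := by
    rw [← map_natCast (algebraMap K₁ E)]
    exact (_root_.map_ne_zero _).2 hq0
  refine ⟨hqE, ?_, fun y hy => ?_⟩
  · rw [mem_nonunits_gaussVal_iff]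
    refine ⟨algebraMap A₀ (LaurentSeries A₀) ((q : ℕ) : A₀), 1, ?_, ?_, ?_, ?_, ?_⟩
    · rw [gIota, coeffMap_algebraMap_gen]
      exact E.algebraMap_mem _
    · rw [map_one]
      exact E.one_mem
    · rw [gRho, coeffMap_algebraMap_gen]
      have : IsLocalRing.residue A₀ ((q : ℕ) : A₀) = 0 := by
        rw [IsLocalRing.residue_eq_zero_iff, IsLocalRing.mem_maximalIdeal]
        exact hqi.not_isUnit
      rw [this, map_zero]
    · rw [map_one]
      exact one_ne_zero
    · rw [map_one, mul_one, gIota, coeffMap_algebraMap_gen]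
      simp
  · rw [mem_nonunits_gaussVal_iff] at hy
    have h1 := InM.inV_div E hy hqi
    rw [mem_gaussVal_iff]
    have h2 : ((y / ((q : ℕ) : E) : E) : LaurentSeries K₁) =
        algebraMap K₁ (LaurentSeries K₁) (algebraMap A₀ K₁ ((q : ℕ) : A₀))⁻¹ *
          (y : LaurentSeries K₁) := by
      rw [map_inv₀, div_eq_inv_mul]
      push_cast
      simp
    rw [h2]
    exact h1

/-- discreteness of the Gauss valuation -/
theorem gaussVal_disc (hqi : Irreducible ((q : ℕ) : A₀)) (a : E) (ha : a ≠ 0) :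
    ∃ k : ℤ, IsVUnit (gaussVal E hG) (a / ((q : ℕ) : E) ^ k) := by
  have hφ : Function.Injective (algebraMap A₀ K₁) := IsFractionRing.injective A₀ K₁
  have ha0 : (a : LaurentSeries K₁) ≠ 0 := fun h => ha (Subtype.ext h)
  obtain ⟨c, a', b, hc, ha', hb, hra, hrb, h⟩ := hG a a.2 ha0
  -- `c = q^k * unit`
  obtain ⟨x, y, hy, hxy⟩ := IsFractionRing.div_surjective (A := A₀) c
  have hy0 : y ≠ 0 := nonZeroDivisors.ne_zero hy
  have hx0 : x ≠ 0 := by
    rintro rfl
    rw [map_zero, zero_div] at hxy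
    exact hc hxy.symm
  obtain ⟨m, u, hu⟩ := IsDiscreteValuationRing.eq_unit_mul_pow_irreducible hx0 hqi
  obtain ⟨n, v, hv⟩ := IsDiscreteValuationRing.eq_unit_mul_pow_irreducible hy0 hqi
  have hqK : algebraMap A₀ K₁ ((q : ℕ) : A₀) ≠ 0 := fun h0 =>
    hqi.ne_zero ((map_eq_zero_iff _ hφ).1 h0)
  have hvK : algebraMap A₀ K₁ (v : A₀) ≠ 0 := fun h0 =>
    v.ne_zero ((map_eq_zero_iff _ hφ).1 h0)
  have huK : algebraMap A₀ K₁ (u : A₀) ≠ 0 := fun h0 =>
    u.ne_zero ((map_eq_zero_iff _ hφ).1 h0)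
  have hcq : c = algebraMap A₀ K₁ ((u * v⁻¹ : A₀ˣ) : A₀) *
      (algebraMap A₀ K₁ ((q : ℕ) : A₀)) ^ ((m : ℤ) - n) := by
    rw [← hxy, hu, hv, map_mul, map_mul, map_pow, map_pow, zpow_sub₀ hqK, zpow_natCast,
      zpow_natCast, Units.val_mul, map_mul]
    have hvv : algebraMap A₀ K₁ ((v⁻¹ : A₀ˣ) : A₀) = (algebraMap A₀ K₁ (v : A₀))⁻¹ := by
      apply eq_inv_of_mul_eq_one_left
      rw [← map_mul, Units.inv_mul, map_one]
    rw [hvv]
    field_simp
  set w : A₀ˣ := u * v⁻¹ with hw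
  refine ⟨(m : ℤ) - n, ?_⟩
  have hqE : (((q : ℕ) : E) : LaurentSeries K₁) =
      algebraMap K₁ (LaurentSeries K₁) (algebraMap A₀ K₁ ((q : ℕ) : A₀)) := by
    simp
  have hqE0 : ((q : ℕ) : E) ≠ 0 := by
    rw [← map_natCast (algebraMap K₁ E)]
    refine (_root_.map_ne_zero _).2 ?_
    simpa using hqK
  have hb0 : gIota K₁ A₀ b ≠ 0 := gIota_ne_zero_of_gRho hrb
  have ha'0 : gIota K₁ A₀ a' ≠ 0 := gIota_ne_zero_of_gRho hra
  -- the quotient
  have key : ((a / ((q : ℕ) : E) ^ ((m : ℤ) - n) : E) : LaurentSeries K₁) * gIota K₁ A₀ b =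
      gIota K₁ A₀ (algebraMap A₀ (LaurentSeries A₀) (w : A₀) * a') := by
    rw [gIota_algebraMap_mul]
    have e1 : ((a / ((q : ℕ) : E) ^ ((m : ℤ) - n) : E) : LaurentSeries K₁) =
        (a : LaurentSeries K₁) /
          (algebraMap K₁ (LaurentSeries K₁) (algebraMap A₀ K₁ ((q : ℕ) : A₀))) ^ ((m : ℤ) - n) := by
      rw [← hqE]
      push_cast
      rfl
    rw [e1, div_mul_eq_mul_div, h, hcq, map_mul, map_zpow₀]
    have hqL : algebraMap K₁ (LaurentSeries K₁) (algebraMap A₀ K₁ ((q : ℕ) : A₀)) ≠ 0 := by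
      rw [Ne, map_eq_zero]
      exact hqK
    field_simp
  have hwr : IsLocalRing.residue A₀ (w : A₀) ≠ 0 := by
    rw [Ne, IsLocalRing.residue_eq_zero_iff, IsLocalRing.mem_maximalIdeal]
    exact fun h => h w.isUnit
  have hrwa : gRho A₀ (algebraMap A₀ (LaurentSeries A₀) (w : A₀) * a') ≠ 0 := by
    rw [gRho_algebraMap_mul]
    refine mul_ne_zero ?_ hra
    rw [Ne, map_eq_zero]
    exact hwr
  have hwaE : gIota K₁ A₀ (algebraMap A₀ (LaurentSeries A₀) (w : A₀) * a') ∈ E := by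
    rw [gIota_algebraMap_mul]
    exact E.mul_mem (E.algebraMap_mem _) ha'
  have hne : a / ((q : ℕ) : E) ^ ((m : ℤ) - n) ≠ 0 :=
    div_ne_zero ha (zpow_ne_zero _ hqE0)
  refine ⟨hne, ?_, ?_⟩
  · rw [mem_gaussVal_iff]
    exact ⟨_, b, hwaE, hb, hrb, key⟩
  · rw [mem_gaussVal_iff]
    refine ⟨b, _, hb, hwaE, hrwa, ?_⟩
    rw [← key]
    have hne' : ((a / ((q : ℕ) : E) ^ ((m : ℤ) - n) : E) : LaurentSeries K₁) ≠ 0 :=
      fun h0 => hne (Subtype.ext h0)
    push_cast
    field_simp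

end GaussVal

end Fermat.Agent.H86.SS2
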