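import Mathlib
import Fermat.Agent.H86.SS2.Emb3Gauss
import Fermat.Agent.H11.SS2.Val3Defs
import Fermat.Agent.H7.SS2.Vertical
import Fermat.Agent.H32.SS.ModelGenHaupt

/-!
# P-SS2, row SS2-C1 : the CONCRETE INPUT PACKAGE for `H11.SS2.Val3AbsStatement` (helper86)

At `F = ModelField K₁ (M' q)`, `E = ModelField K₁ (M' q q)`, `α / β = heckeAlphaBar / heckeBetaBar`,
`O₁ = H7.SS2.vInf`, `O₂ = H7.SS2.vZero Wq`, the elements `X₁, Y₁ ∈ F`, `Z ∈ E` with expansions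
`sX1`, `sY1`, `sZ` and the two Kronecker polynomials
`Pα = T^(q-1) (T + Y₁) - X₁ + q G`, `Pβ = Pα.map Wq` satisfy all hypotheses of
`Val3AbsStatement` which concern them (`ModelVal3Inputs`), given the sub-rows
`ModelKron2Statement`, `ModelRedStatement`, `AL2ExistsStatement`.
-/

set_option autoImplicit false
set_option linter.unusedSectionVars false
set_option linter.style.haveILetI false
set_option synthInstance.maxHeartbeats 400000
set_option maxHeartbeats 1600000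

noncomputable section

namespace Fermat.Agent.H86.SS2

open Polynomial ModularCurve AlgebraicCurve
open Fermat.Agent.H22.KL Fermat.Agent.H8.SS Fermat.Agent.H7.SS Fermat.Agent.H82.SS
open Fermat.Agent.H7.SS2 Fermat.Agent.H11.SS2

/-! ### Base change of the series -/

section Series

variable {A B : Type} [CommRing A] [CommRing B] (φ : A →+* B) (q : ℕ) [NeZero q]

theorem coeffMap_sH : coeffMap φ (sH A) = sH B := coeffMap_h4S φ

theorem coeffMap_sH1 : coeffMap φ (sH1 A q) = sH1 B q := by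
  unfold sH1
  rw [ModularCurve.coeffMap_qExpand, coeffMap_h4S]

theorem coeffMap_sH2 : coeffMap φ (sH2 A q) = sH2 B q := by
  unfold sH2
  rw [ModularCurve.coeffMap_qExpand, ModularCurve.coeffMap_qExpand, coeffMap_h4S]

theorem coeffMap_sX1 : coeffMap φ (sX1 A q) = sX1 B q := by
  unfold sX1
  rw [map_sub, map_pow, coeffMap_sH1, coeffMap_sH]

theorem coeffMap_sY1 : coeffMap φ (sY1 A q) = sY1 B q := by
  unfold sY1
  rw [map_sub, map_pow, coeffMap_sH1, coeffMap_sH]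

theorem coeffMap_sZ : coeffMap φ (sZ A q) = sZ B q := by
  unfold sZ
  rw [map_sub, coeffMap_sH2, coeffMap_sH]

theorem coeffMap_sX2 : coeffMap φ (sX2 A q) = sX2 B q := by
  unfold sX2
  rw [map_sub, map_pow, coeffMap_sH2, coeffMap_sH1]

theorem qExpand_sX1 : qExpand A q (sX1 A q) = sX2 A q := by
  unfold sX1 sX2 sH1 sH2 sH
  rw [map_sub, map_pow]

end Series

/-! ### `W_q` is an involution -/

section Invol

variable (K₁ : Type) [Field K₁] [Algebra ℚ K₁] [FiniteDimensional ℚ K₁]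
  (M' q : ℕ) [NeZero M'] [NeZero q]

theorem atkinLehnerModel_invol (hq : q.Prime) (hqM : ¬ q ∣ M') (h4 : 4 ∣ M')
    (Wq : ModelField K₁ (M' * q) ≃ₐ[K₁] ModelField K₁ (M' * q))
    (hWq : IsAtkinLehnerModel K₁ M' q Wq) (z : ModelField K₁ (M' * q)) : Wq (Wq z) = z := by
  let H : ModelField K₁ M' := ⟨h4S K₁, h4S_mem_laurentBaseChange K₁ M' h4⟩
  have hH : (H : LaurentSeries K₁) = coeffEmb K₁ (h4S ℚ) := by
    show h4S K₁ = coeffEmb K₁ (h4S ℚ)
    rw [coeffEmb, coeffMap_h4S]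
  obtain ⟨p, hp⟩ := Fermat.Agent.H32.SSGen.modelGen_h4S M' q hq hqM K₁ H hH z
  have key : ∀ p : (ModelField K₁ M')[X],
      Wq (Wq (p.eval₂ (heckeAlphaBar K₁ M' q : ModelField K₁ M' →+* ModelField K₁ (M' * q))
        (heckeBetaBar K₁ M' q H))) =
      p.eval₂ (heckeAlphaBar K₁ M' q : ModelField K₁ M' →+* ModelField K₁ (M' * q))
        (heckeBetaBar K₁ M' q H) := by
    intro p
    induction p using Polynomial.induction_on' with
    | add p₁ p₂ h₁ h₂ => rw [eval₂_add, map_add, map_add, h₁, h₂]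
    | monomial n a =>
      rw [eval₂_monomial, map_mul, map_mul, map_pow, map_pow]
      have e1 : Wq (Wq ((heckeAlphaBar K₁ M' q : ModelField K₁ M' →+* ModelField K₁ (M' * q)) a))
          = (heckeAlphaBar K₁ M' q : ModelField K₁ M' →+* ModelField K₁ (M' * q)) a := by
        show Wq (Wq (heckeAlphaBar K₁ M' q a)) = heckeAlphaBar K₁ M' q a
        rw [hWq.1, hWq.2]
      rw [e1, hWq.2, hWq.1]
  rw [hp]
  exact key p

end Invol

/-! ### The package -/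

section Package

variable (K₁ : Type) [Field K₁] [Algebra ℚ K₁] (A₀ : Type) [CommRing A₀] [IsDomain A₀]
  [IsDiscreteValuationRing A₀] [Algebra A₀ K₁] [IsFractionRing A₀ K₁]
  (M' q : ℕ) [NeZero M'] [NeZero q]

/-- All hypotheses of `H11.SS2.Val3AbsStatement` about `X₁, Y₁, Z, Pα, Pβ` at the model
(`O₁ = vInf`, `O₂ = vZero Wq`, `α / β = heckeAlphaBar / heckeBetaBar K₁ (M' q) q`). -/
structure ModelVal3Inputs (Wq : ModelField K₁ (M' * q) ≃ₐ[K₁] ModelField K₁ (M' * q))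
    (X₁ Y₁ : ModelField K₁ (M' * q)) (Z : ModelField K₁ (M' * q * q))
    (Pα Pβ : Polynomial (ModelField K₁ (M' * q))) : Prop where
  ne_O : vInf K₁ A₀ (M' * q) ≠ vZero K₁ A₀ (M' * q) Wq
  x1_O1 : VUnit (vInf K₁ A₀ (M' * q)) (X₁ / ((q : ℕ) : ModelField K₁ (M' * q)))
  x1_O2 : VUnit (vZero K₁ A₀ (M' * q) Wq) X₁
  y1_O1 : VUnit (vInf K₁ A₀ (M' * q)) Y₁
  y1_O2 : VUnit (vZero K₁ A₀ (M' * q) Wq) (Y₁ / ((q : ℕ) : ModelField K₁ (M' * q)))
  x1_ne : X₁ ≠ 0
  y1_ne : Y₁ ≠ 0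
  rel : Z + (heckeAlphaBar K₁ (M' * q) q).toRingHom Y₁ =
    (heckeBetaBar K₁ (M' * q) q).toRingHom X₁
  monicα : Pα.Monic
  degα : Pα.natDegree = q
  monicβ : Pβ.Monic
  degβ : Pβ.natDegree = q
  coeffα : ∀ i, Pα.coeff i ∈ vInf K₁ A₀ (M' * q) ∧ Pα.coeff i ∈ vZero K₁ A₀ (M' * q) Wq
  coeffβ : ∀ i, Pβ.coeff i ∈ vInf K₁ A₀ (M' * q) ∧ Pβ.coeff i ∈ vZero K₁ A₀ (M' * q) Wq
  rootα : (Pα.map (heckeAlphaBar K₁ (M' * q) q).toRingHom).eval Z = 0
  rootβ : (Pβ.map (heckeBetaBar K₁ (M' * q) q).toRingHom).eval (-Z) = 0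
  redα1 : ∀ i, (Pα - X ^ (q - 1) * (X + C Y₁)).coeff i ∈ (vInf K₁ A₀ (M' * q)).nonunits
  unitα : VUnit (vInf K₁ A₀ (M' * q)) (Pα.coeff 0 / ((q : ℕ) : ModelField K₁ (M' * q)))
  redα2 : ∀ i, (Pα - (X ^ q - C X₁)).coeff i ∈ (vZero K₁ A₀ (M' * q) Wq).nonunits
  redβ1 : ∀ i, (Pβ - X ^ (q - 1) * (X + C X₁)).coeff i ∈ (vZero K₁ A₀ (M' * q) Wq).nonunits
  unitβ : VUnit (vZero K₁ A₀ (M' * q) Wq) (Pβ.coeff 0 / ((q : ℕ) : ModelField K₁ (M' * q)))
  redβ2 : ∀ i, (Pβ - (X ^ q - C Y₁)).coeff i ∈ (vInf K₁ A₀ (M' * q)).nonunits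
  map_Wq : Pβ = Pα.map (Wq : ModelField K₁ (M' * q) →+* ModelField K₁ (M' * q))

variable {K₁ A₀ M' q}

theorem IsVUnit.toVUnit {E : Type} [Field E] {V : ValuationSubring E} {z : E}
    (h : IsVUnit V z) : VUnit V z := ⟨h.2.1, h.2.2⟩

/-- coefficients of `X^q + (C y * X^(q-1) - C x + C c * G)` -/
theorem kronPoly_coeff {R : Type} [CommRing R] (q : ℕ) (y x c : R) (G : Polynomial R) (i : ℕ) :
    (X ^ q + (C y * X ^ (q - 1) - C x + C c * G)).coeff i =
      (if i = q then 1 else 0) + (y * (if i = q - 1 then 1 else 0) - (if i = 0 then x else 0)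
        + c * G.coeff i) := by
  rw [coeff_add, coeff_add, coeff_sub, coeff_X_pow, coeff_C_mul, coeff_X_pow, coeff_C,
    coeff_C_mul]

theorem kronPoly_monic {R : Type} [CommRing R] [Nontrivial R] (q : ℕ) (hq : 2 ≤ q) (y x c : R)
    (G : Polynomial R) (hG : G.natDegree < q) :
    (X ^ q + (C y * X ^ (q - 1) - C x + C c * G)).Monic ∧
      (X ^ q + (C y * X ^ (q - 1) - C x + C c * G)).natDegree = q := by
  have hdeg : (C y * X ^ (q - 1) - C x + C c * G).degree < (q : WithBot ℕ) := by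
    have h1 : (C y * X ^ (q - 1)).degree < (q : WithBot ℕ) := by
      refine lt_of_le_of_lt (degree_C_mul_X_pow_le _ _) ?_
      exact_mod_cast (by omega : q - 1 < q)
    have h2 : (C x : Polynomial R).degree < (q : WithBot ℕ) := by
      refine lt_of_le_of_lt degree_C_le ?_
      exact_mod_cast (by omega : 0 < q)
    have h3 : (C c * G).degree < (q : WithBot ℕ) := by
      refine lt_of_le_of_lt (degree_le_natDegree) ?_
      refine lt_of_le_of_lt (Nat.cast_le.2 (natDegree_C_mul_le _ _)) ?_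
      exact_mod_cast hG
    refine lt_of_le_of_lt (degree_add_le _ _) (max_lt ?_ h3)
    exact lt_of_le_of_lt (degree_sub_le _ _) (max_lt h1 h2)
  refine ⟨monic_X_pow_add hdeg, ?_⟩
  rw [natDegree_add_eq_left_of_degree_lt (by rw [degree_X_pow]; exact hdeg), natDegree_X_pow]

/-- **The concrete input package.** -/
theorem modelVal3Inputs [Fact q.Prime] [FiniteDimensional ℚ K₁]
    (hK : ModelKron2Statement M' q) (hRed : ModelRedStatement q)
    (hAL : AL2ExistsStatement M' q)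
    (hq2 : q ≠ 2) (h4 : 4 ∣ M') (hqM : ¬ q ∣ M') (hqi : Irreducible ((q : ℕ) : A₀))
    (Wq : ModelField K₁ (M' * q) ≃ₐ[K₁] ModelField K₁ (M' * q))
    (hWq : IsAtkinLehnerModel K₁ M' q Wq) :
    ∃ (X₁ Y₁ : ModelField K₁ (M' * q)) (Z : ModelField K₁ (M' * q * q))
      (Pα Pβ : Polynomial (ModelField K₁ (M' * q))),
      (X₁ : LaurentSeries K₁) = sX1 K₁ q ∧ (Y₁ : LaurentSeries K₁) = sY1 K₁ q ∧
      (Z : LaurentSeries K₁) = sZ K₁ q ∧
      ModelVal3Inputs K₁ A₀ M' q Wq X₁ Y₁ Z Pα Pβ := by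
  have hq : q.Prime := Fact.out
  have hq2' : 2 ≤ q := hq.two_le
  have hcop : Nat.Coprime M' q := ((Nat.Prime.coprime_iff_not_dvd hq).2 hqM).symm
  obtain ⟨W, hW⟩ := hAL hcop K₁ Wq hWq
  obtain ⟨G, hGdeg, hGint, hGWint, ⟨B, hBred, hB⟩, hGrel⟩ := hK hq2 h4 hqM K₁ Wq hWq
  obtain ⟨hYred, hZred, δ, hδ1, hδ2, hδred⟩ := hRed hq2
  have hinv := atkinLehnerModel_invol K₁ M' q hq hqM h4 Wq hWq
  have hqm : ((q : ℕ) : A₀) ∈ IsLocalRing.maximalIdeal A₀ := by
    rw [IsLocalRing.mem_maximalIdeal]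
    exact hqi.not_isUnit
  -- the elements
  let H₀ : ModelField K₁ M' := ⟨h4S K₁, h4S_mem_laurentBaseChange K₁ M' h4⟩
  let h : ModelField K₁ (M' * q) := heckeAlphaBar K₁ M' q H₀
  let h1 : ModelField K₁ (M' * q) := heckeBetaBar K₁ M' q H₀
  let X₁ : ModelField K₁ (M' * q) := h1 - h ^ q
  let Y₁ : ModelField K₁ (M' * q) := h - h1 ^ q
  let Z : ModelField K₁ (M' * q * q) :=
    heckeBetaBar K₁ (M' * q) q h1 - heckeAlphaBar K₁ (M' * q) q h
  have hhs : (h : LaurentSeries K₁) = sH K₁ := by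
    show ((heckeAlphaBar K₁ M' q H₀ : ModelField K₁ (M' * q)) : LaurentSeries K₁) = _
    rw [coe_heckeAlphaBar]
    rfl
  have hh1s : (h1 : LaurentSeries K₁) = sH1 K₁ q := by
    show ((heckeBetaBar K₁ M' q H₀ : ModelField K₁ (M' * q)) : LaurentSeries K₁) = _
    rw [coe_heckeBetaBar]
    rfl
  have hXs : (X₁ : LaurentSeries K₁) = sX1 K₁ q := by
    show ((h1 - h ^ q : ModelField K₁ (M' * q)) : LaurentSeries K₁) = _
    push_cast
    rw [hhs, hh1s]
    rfl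
  have hYs : (Y₁ : LaurentSeries K₁) = sY1 K₁ q := by
    show ((h - h1 ^ q : ModelField K₁ (M' * q)) : LaurentSeries K₁) = _
    push_cast
    rw [hhs, hh1s]
    rfl
  have hZs : (Z : LaurentSeries K₁) = sZ K₁ q := by
    show ((heckeBetaBar K₁ (M' * q) q h1 - heckeAlphaBar K₁ (M' * q) q h :
      ModelField K₁ (M' * q * q)) : LaurentSeries K₁) = _
    push_cast
    rw [coe_heckeBetaBar, coe_heckeAlphaBar, hhs, hh1s]
    rfl
  -- the action of `Wq`
  have hWh : Wq h = h1 := hWq.1 H₀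
  have hWh1 : Wq h1 = h := hWq.2 H₀
  have hWX : Wq X₁ = Y₁ := by
    show Wq (h1 - h ^ q) = h - h1 ^ q
    rw [map_sub, map_pow, hWh, hWh1]
  have hWY : Wq Y₁ = X₁ := by
    show Wq (h - h1 ^ q) = h1 - h ^ q
    rw [map_sub, map_pow, hWh, hWh1]
  have hWZ : W Z = -Z := by
    show W (heckeBetaBar K₁ (M' * q) q h1 - heckeAlphaBar K₁ (M' * q) q h) =
      -(heckeBetaBar K₁ (M' * q) q h1 - heckeAlphaBar K₁ (M' * q) q h)
    rw [map_sub, hW.beta, hW.alpha, hWh, hWh1]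
    ring
  -- valuation rings
  have hG' := hasGNF_model K₁ A₀ (M' * q)
  have hO₂mem : ∀ z, z ∈ vZero K₁ A₀ (M' * q) Wq ↔ Wq z ∈ vInf K₁ A₀ (M' * q) :=
    fun z => mem_vZero_iff Wq z
  have hO₂non : ∀ z, z ∈ (vZero K₁ A₀ (M' * q) Wq).nonunits ↔
      Wq z ∈ (vInf K₁ A₀ (M' * q)).nonunits := fun z => mem_nonunits_vZero_iff Wq z
  have hO₂unit : ∀ z, IsVUnit (vInf K₁ A₀ (M' * q)) (Wq z) →
      IsVUnit (vZero K₁ A₀ (M' * q) Wq) z := by
    intro z hz
    refine ⟨fun h0 => hz.1 (by rw [h0, map_zero]), (hO₂mem z).2 hz.2.1, ?_⟩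
    rw [hO₂mem, map_inv₀]
    exact hz.2.2
  have hqK : ((q : ℕ) : K₁) ≠ 0 := by
    haveI := algebraRat.charZero K₁
    exact Nat.cast_ne_zero.2 hq.ne_zero
  have hqL : ((q : ℕ) : LaurentSeries K₁) ≠ 0 := by
    rw [← map_natCast (algebraMap K₁ (LaurentSeries K₁))]
    exact (_root_.map_ne_zero _).2 hqK
  have hqE : ((q : ℕ) : ModelField K₁ (M' * q)) ≠ 0 := by
    rw [← map_natCast (algebraMap K₁ (ModelField K₁ (M' * q)))]
    exact (_root_.map_ne_zero _).2 hqK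
  have hqO₁ : IsUniformiser (ModelField K₁ (M' * q)) (vInf K₁ A₀ (M' * q))
      ((q : ℕ) : ModelField K₁ (M' * q)) :=
    isUniformiser_gaussVal_q _ hG' q hqi
  have hqO₁m : ((q : ℕ) : ModelField K₁ (M' * q)) ∈ (vInf K₁ A₀ (M' * q)).nonunits := hqO₁.2.1
  have hqO₂m : ((q : ℕ) : ModelField K₁ (M' * q)) ∈ (vZero K₁ A₀ (M' * q) Wq).nonunits := by
    rw [hO₂non, map_natCast]
    exact hqO₁m
  -- the level-`L` table
  have hY₁u : IsVUnit (vInf K₁ A₀ (M' * q)) Y₁ :=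
    isVUnit_gaussVal_of_int _ hG' q hqm Y₁ (sY1 ℤ q) (by rw [hYs, coeffMap_sY1]) hYred
  have hXqs : ((X₁ / ((q : ℕ) : ModelField K₁ (M' * q)) : ModelField K₁ (M' * q)) :
      LaurentSeries K₁) = coeffMap (Int.castRingHom K₁) δ := by
    push_cast
    rw [hXs, ← coeffMap_sX1 (Int.castRingHom K₁) q, hδ1, map_mul, map_natCast,
      mul_div_cancel_left₀ _ hqL]
  have hXqu : IsVUnit (vInf K₁ A₀ (M' * q)) (X₁ / ((q : ℕ) : ModelField K₁ (M' * q))) :=
    isVUnit_gaussVal_of_int _ hG' q hqm _ δ hXqs hδred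
  have hX₁eq : X₁ = ((q : ℕ) : ModelField K₁ (M' * q)) *
      (X₁ / ((q : ℕ) : ModelField K₁ (M' * q))) := by
    field_simp
  have hX₁m : X₁ ∈ (vInf K₁ A₀ (M' * q)).nonunits := by
    rw [hX₁eq]
    exact nonunits_mul_mem hqO₁m hXqu.mem
  have hX₁0 : X₁ ≠ 0 := by
    rw [hX₁eq]
    exact mul_ne_zero hqE hXqu.1
  have hX₁O₂u : IsVUnit (vZero K₁ A₀ (M' * q) Wq) X₁ := hO₂unit X₁ (by rw [hWX]; exact hY₁u)
  have hYqO₂u : IsVUnit (vZero K₁ A₀ (M' * q) Wq)
      (Y₁ / ((q : ℕ) : ModelField K₁ (M' * q))) :=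
    hO₂unit _ (by rw [map_div₀, hWY, map_natCast]; exact hXqu)
  have hY₁m : Y₁ ∈ (vZero K₁ A₀ (M' * q) Wq).nonunits := by
    rw [hO₂non, hWY]
    exact hX₁m
  -- the polynomial `Pα`
  obtain ⟨hPmonic, hPdeg⟩ := kronPoly_monic q hq2' Y₁ X₁
    ((q : ℕ) : ModelField K₁ (M' * q)) G hGdeg
  have hPcoeff := kronPoly_coeff q Y₁ X₁ ((q : ℕ) : ModelField K₁ (M' * q)) G
  have hGO₁ : ∀ i, G.coeff i ∈ vInf K₁ A₀ (M' * q) := fun i => by
    obtain ⟨g, hg⟩ := hGint i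
    exact mem_gaussVal_of_int _ hG' _ g hg
  have hGO₂ : ∀ i, G.coeff i ∈ vZero K₁ A₀ (M' * q) Wq := fun i => by
    rw [hO₂mem]
    obtain ⟨g, hg⟩ := hGWint i
    exact mem_gaussVal_of_int _ hG' _ g hg
  have hmemV : ∀ V : ValuationSubring (ModelField K₁ (M' * q)), Y₁ ∈ V → X₁ ∈ V →
      ((q : ℕ) : ModelField K₁ (M' * q)) ∈ V → (∀ i, G.coeff i ∈ V) →
      ∀ i, (X ^ q + (C Y₁ * X ^ (q - 1) - C X₁ +
        C ((q : ℕ) : ModelField K₁ (M' * q)) * G)).coeff i ∈ V := by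
    intro V hy hx hqV hg i
    rw [hPcoeff]
    refine add_mem ?_ (add_mem (sub_mem (mul_mem hy ?_) ?_) (mul_mem hqV (hg i)))
    · split_ifs
      · exact one_mem _
      · exact zero_mem _
    · split_ifs
      · exact one_mem _
      · exact zero_mem _
    · split_ifs
      · exact hx
      · exact zero_mem _
  have hXq : (X : Polynomial (ModelField K₁ (M' * q))) ^ (q - 1) * X = X ^ q := by
    rw [← pow_succ, Nat.sub_add_cancel hq.one_le]
  have e1 : (X ^ q + (C Y₁ * X ^ (q - 1) - C X₁ +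
      C ((q : ℕ) : ModelField K₁ (M' * q)) * G)) - X ^ (q - 1) * (X + C Y₁) =
      C 0 * X ^ (q - 1) - C X₁ + C ((q : ℕ) : ModelField K₁ (M' * q)) * G := by
    rw [mul_add, hXq, C_0]
    ring
  have e2 : (X ^ q + (C Y₁ * X ^ (q - 1) - C X₁ +
      C ((q : ℕ) : ModelField K₁ (M' * q)) * G)) - (X ^ q - C X₁) =
      C Y₁ * X ^ (q - 1) - C 0 + C ((q : ℕ) : ModelField K₁ (M' * q)) * G := by
    rw [C_0]
    ring
  have hnonV : ∀ (V : ValuationSubring (ModelField K₁ (M' * q))) (y x : ModelField K₁ (M' * q)),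
      y ∈ V.nonunits → x ∈ V.nonunits →
      ((q : ℕ) : ModelField K₁ (M' * q)) ∈ V.nonunits → (∀ i, G.coeff i ∈ V) →
      ∀ i, (C y * X ^ (q - 1) - C x +
        C ((q : ℕ) : ModelField K₁ (M' * q)) * G).coeff i ∈ V.nonunits := by
    intro V y x hy hx hqV hg i
    rw [coeff_add, coeff_sub, coeff_C_mul, coeff_X_pow, coeff_C, coeff_C_mul]
    refine nonunits_add_mem ?_ (nonunits_mul_mem hqV (hg i))
    rw [sub_eq_add_neg]
    refine nonunits_add_mem ?_ (nonunits_neg_mem ?_)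
    · split_ifs
      · rw [mul_one]
        exact hy
      · rw [mul_zero]
        exact V.nonunits.zero_mem
    · split_ifs
      · exact hx
      · exact V.nonunits.zero_mem
  have hP0 : (X ^ q + (C Y₁ * X ^ (q - 1) - C X₁ +
      C ((q : ℕ) : ModelField K₁ (M' * q)) * G)).coeff 0 =
      -X₁ + ((q : ℕ) : ModelField K₁ (M' * q)) * G.coeff 0 := by
    rw [hPcoeff, if_neg (by omega), if_neg (by omega), if_pos rfl]
    ring
  have hP0s : (((X ^ q + (C Y₁ * X ^ (q - 1) - C X₁ +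
      C ((q : ℕ) : ModelField K₁ (M' * q)) * G)).coeff 0 /
        ((q : ℕ) : ModelField K₁ (M' * q)) : ModelField K₁ (M' * q)) : LaurentSeries K₁) =
      coeffMap (Int.castRingHom K₁) B := by
    rw [hP0]
    push_cast
    rw [hXs, hB, mul_div_cancel_left₀ _ hqL]
  have hP0u : IsVUnit (vInf K₁ A₀ (M' * q)) ((X ^ q + (C Y₁ * X ^ (q - 1) - C X₁ +
      C ((q : ℕ) : ModelField K₁ (M' * q)) * G)).coeff 0 /
        ((q : ℕ) : ModelField K₁ (M' * q))) :=
    isVUnit_gaussVal_of_int _ hG' q hqm _ B hP0s hBred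
  -- the polynomial `Pβ`
  have hcα : ∀ i, (X ^ q + (C Y₁ * X ^ (q - 1) - C X₁ +
      C ((q : ℕ) : ModelField K₁ (M' * q)) * G)).coeff i ∈ vInf K₁ A₀ (M' * q) ∧
      (X ^ q + (C Y₁ * X ^ (q - 1) - C X₁ +
      C ((q : ℕ) : ModelField K₁ (M' * q)) * G)).coeff i ∈ vZero K₁ A₀ (M' * q) Wq :=
    fun i => ⟨hmemV (vInf K₁ A₀ (M' * q)) hY₁u.mem
          ((vInf K₁ A₀ (M' * q)).nonunits_le hX₁m)
          ((vInf K₁ A₀ (M' * q)).nonunits_le hqO₁m) hGO₁ i,
        hmemV (vZero K₁ A₀ (M' * q) Wq) ((vZero K₁ A₀ (M' * q) Wq).nonunits_le hY₁m)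
          hX₁O₂u.mem ((vZero K₁ A₀ (M' * q) Wq).nonunits_le hqO₂m) hGO₂ i⟩
  have hr1 : ∀ i, ((X ^ q + (C Y₁ * X ^ (q - 1) - C X₁ +
      C ((q : ℕ) : ModelField K₁ (M' * q)) * G)) - X ^ (q - 1) * (X + C Y₁)).coeff i ∈
      (vInf K₁ A₀ (M' * q)).nonunits := by
    intro i
    rw [e1]
    exact hnonV _ 0 X₁ (ValuationSubring.nonunits _).zero_mem hX₁m hqO₁m hGO₁ i
  have hr2 : ∀ i, ((X ^ q + (C Y₁ * X ^ (q - 1) - C X₁ +
      C ((q : ℕ) : ModelField K₁ (M' * q)) * G)) - (X ^ q - C X₁)).coeff i ∈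
      (vZero K₁ A₀ (M' * q) Wq).nonunits := by
    intro i
    rw [e2]
    exact hnonV _ Y₁ 0 hY₁m (ValuationSubring.nonunits _).zero_mem hqO₂m hGO₂ i
  have hrootα0 : ((X ^ q + (C Y₁ * X ^ (q - 1) - C X₁ +
      C ((q : ℕ) : ModelField K₁ (M' * q)) * G)).map
        (heckeAlphaBar K₁ (M' * q) q).toRingHom).eval Z = 0 := by
    have h0 := hGrel X₁ Y₁ Z hXs hYs hZs
    simp only [Polynomial.map_add, Polynomial.map_sub, Polynomial.map_mul, Polynomial.map_pow,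
      Polynomial.map_X, Polynomial.map_C, eval_add, eval_sub, eval_mul, eval_pow, eval_X, eval_C,
      map_natCast, Polynomial.map_natCast, Polynomial.eval_natCast]
    have hZq : Z ^ (q - 1) * Z = Z ^ q := by
      rw [← pow_succ, Nat.sub_add_cancel hq.one_le]
    have hα : ∀ y, (heckeAlphaBar K₁ (M' * q) q).toRingHom y = heckeAlphaBar K₁ (M' * q) q y :=
      fun y => rfl
    rw [hα, hα]
    linear_combination h0 - hZq
  -- make `Pα` opaque
  obtain ⟨Pα, hPα⟩ : ∃ P : Polynomial (ModelField K₁ (M' * q)), P = X ^ q +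
      (C Y₁ * X ^ (q - 1) - C X₁ + C ((q : ℕ) : ModelField K₁ (M' * q)) * G) := ⟨_, rfl⟩
  rw [← hPα] at hPmonic hPdeg hcα hr1 hr2 hrootα0 hP0u
  obtain ⟨ω, hωapp⟩ : ∃ ω : ModelField K₁ (M' * q) →+* ModelField K₁ (M' * q),
      ∀ z, ω z = Wq z := ⟨(Wq : ModelField K₁ (M' * q) →+* ModelField K₁ (M' * q)), fun z => rfl⟩
  have hωinj : Function.Injective ω := fun a b hab => Wq.injective (by rw [← hωapp, ← hωapp, hab])
  have e1β : Pα.map ω - X ^ (q - 1) * (X + C X₁) = (Pα - X ^ (q - 1) * (X + C Y₁)).map ω := by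
    rw [Polynomial.map_sub, Polynomial.map_mul, Polynomial.map_pow, Polynomial.map_add,
      Polynomial.map_X, Polynomial.map_C, hωapp, hWY]
  have e2β : Pα.map ω - (X ^ q - C Y₁) = (Pα - (X ^ q - C X₁)).map ω := by
    rw [Polynomial.map_sub, Polynomial.map_sub, Polynomial.map_pow,
      Polynomial.map_X, Polynomial.map_C, hωapp, hWX]
  have hrootα : (Pα.map (heckeAlphaBar K₁ (M' * q) q).toRingHom).eval Z = 0 := hrootα0
  have hrootβ : ((Pα.map ω).map (heckeBetaBar K₁ (M' * q) q).toRingHom).eval (-Z) = 0 := by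
    have hcomp : ((heckeBetaBar K₁ (M' * q) q).toRingHom).comp ω =
        ((W : ModelField K₁ (M' * q * q) →+* ModelField K₁ (M' * q * q))).comp
          (heckeAlphaBar K₁ (M' * q) q).toRingHom := by
      refine RingHom.ext fun y => ?_
      show heckeBetaBar K₁ (M' * q) q (ω y) = W (heckeAlphaBar K₁ (M' * q) q y)
      rw [hW.alpha, hωapp]
    rw [Polynomial.map_map, hcomp, ← Polynomial.map_map, ← hWZ, Polynomial.eval_map]
    have h2 : (Pα.map (heckeAlphaBar K₁ (M' * q) q).toRingHom).eval₂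
        (W : ModelField K₁ (M' * q * q) →+* ModelField K₁ (M' * q * q)) (W Z) =
        W ((Pα.map (heckeAlphaBar K₁ (M' * q) q).toRingHom).eval Z) :=
      Polynomial.eval₂_at_apply _ _
    rw [h2, hrootα, map_zero]
  refine ⟨X₁, Y₁, Z, Pα, Pα.map ω, hXs, hYs, hZs, ?_⟩
  refine
    { ne_O := ?_
      x1_O1 := hXqu.toVUnit
      x1_O2 := hX₁O₂u.toVUnit
      y1_O1 := hY₁u.toVUnit
      y1_O2 := hYqO₂u.toVUnit
      x1_ne := hX₁0
      y1_ne := hY₁u.1
      rel := ?_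
      monicα := hPmonic
      degα := hPdeg
      monicβ := hPmonic.map ω
      degβ := by rw [Polynomial.natDegree_map_eq_of_injective hωinj, hPdeg]
      coeffα := hcα
      coeffβ := ?_
      rootα := hrootα
      rootβ := hrootβ
      redα1 := ?_
      unitα := hP0u.toVUnit
      redα2 := ?_
      redβ1 := ?_
      unitβ := ?_
      redβ2 := ?_
      map_Wq := ?_ }
  · intro heq
    have h1 : Y₁ ∈ (vInf K₁ A₀ (M' * q)).nonunits := by
      rw [heq]
      exact hY₁m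
    exact hY₁u.not_mem_nonunits h1
  · apply Subtype.ext
    show ((Z + heckeAlphaBar K₁ (M' * q) q Y₁ : ModelField K₁ (M' * q * q)) :
      LaurentSeries K₁) = ((heckeBetaBar K₁ (M' * q) q X₁ : ModelField K₁ (M' * q * q)) :
      LaurentSeries K₁)
    push_cast
    rw [coe_heckeAlphaBar, coe_heckeBetaBar, hZs, hYs, hXs, ← sX2_eq, qExpand_sX1]
  · intro i
    obtain ⟨hc, hc'⟩ := hcα i
    rw [Polynomial.coeff_map, hωapp]
    refine ⟨(hO₂mem _).1 hc', ?_⟩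
    rw [hO₂mem, hinv]
    exact hc
  · exact hr1
  · exact hr2
  · intro i
    rw [e1β, Polynomial.coeff_map, hωapp, hO₂non, hinv]
    exact hr1 i
  · have h3 : (Pα.map ω).coeff 0 / ((q : ℕ) : ModelField K₁ (M' * q)) =
        Wq (Pα.coeff 0 / ((q : ℕ) : ModelField K₁ (M' * q))) := by
      rw [Polynomial.coeff_map, hωapp, map_div₀, map_natCast]
    rw [h3]
    refine (hO₂unit _ ?_).toVUnit
    rw [hinv]
    exact hP0u
  · intro i
    rw [e2β, Polynomial.coeff_map, hωapp, ← hO₂non]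
    exact hr2 i
  · congr 1
    exact RingHom.ext hωapp

end Package

end Fermat.Agent.H86.SS2
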